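import Mathlib
import Fermat.Agent.CFT.LC.LowDegree
import Fermat.Agent.CFT.HyperExt.LCExt

/-!
# PROGRAM G (S56), block GW-Euler, node EU-2: the long exact sequence count

For a short exact sequence `0 → A → B → C → 0` of smooth modules over a field `k` (any group with a
level structure) whose level cohomology is finite-dimensional in degrees `0, 1, 2`:

  `h⁰(A) + h⁰(C) + h¹(B) + h²(A) + rank (H²(B) → H²(C)) = h⁰(B) + h¹(A) + h¹(C) + h²(B)`,

and `H²(B) → H²(C)` is surjective as soon as its rank is `h²(C)`.  No surjectivity is assumed: this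
is the count used (globally, for the dual sequence, and locally) in the squeeze of node EU-2.
-/

set_option autoImplicit false

universe u

open CategoryTheory Module

namespace Fermat.Agent.TW.Euler.H2Surj

open Fermat.Agent.CFT HExt

section LinAlg

variable {k : Type*} [Field k]

/-- Rank–nullity at an exact spot. -/
theorem finrank_eq_range_add_range' {U V W : Type*} [AddCommGroup U] [Module k U]
    [AddCommGroup V] [Module k V] [AddCommGroup W] [Module k W] [FiniteDimensional k V]
    (f : U →ₗ[k] V) (g : V →ₗ[k] W) (h : Function.Exact f g) :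
    finrank k V = finrank k (LinearMap.range f) + finrank k (LinearMap.range g) := by
  have h1 := LinearMap.finrank_range_add_finrank_ker g
  rw [(LinearMap.exact_iff.1 h)] at h1
  omega

/-- A linear map into a finite-dimensional space whose rank is the dimension of the target is
surjective. -/
theorem surjective_of_finrank_range_eq {V W : Type*} [AddCommGroup V] [Module k V]
    [AddCommGroup W] [Module k W] [FiniteDimensional k W] (g : V →ₗ[k] W)
    (h : finrank k (LinearMap.range g) = finrank k W) : Function.Surjective g :=
  LinearMap.range_eq_top.1 (Submodule.eq_top_of_finrank_eq h)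

end LinAlg

section Count

variable {k G : Type u} [Field k] [Group G] {L : LevelStructure G} {A B C : Rep.{u} k G}

/-- **The long exact sequence count** (no surjectivity at the end). -/
theorem les_count (hA : IsSmooth L A) (hB : IsSmooth L B) (hC : IsSmooth L C)
    (f : A ⟶ B) (g : B ⟶ C) (hf : Function.Injective f.hom) (hg : Function.Surjective g.hom)
    (hfg : Function.Exact f.hom g.hom)
    (finA : ∀ n, n ≤ 2 → Module.Finite k ((LC.cx hA).H n))
    (finB : ∀ n, n ≤ 2 → Module.Finite k ((LC.cx hB).H n))
    (finC : ∀ n, n ≤ 2 → Module.Finite k ((LC.cx hC).H n)) :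
    finrank k ((LC.cx hA).H 0) + finrank k ((LC.cx hC).H 0) + finrank k ((LC.cx hB).H 1) +
        finrank k ((LC.cx hA).H 2) +
        finrank k (LinearMap.range ((LC.cxMap hB hC g).mapH 2)) =
      finrank k ((LC.cx hB).H 0) + finrank k ((LC.cx hA).H 1) + finrank k ((LC.cx hC).H 1) +
        finrank k ((LC.cx hB).H 2) := by
  have se := LC.cx_shortExact f g hA hB hC hf hg hfg
  have := finA 0 (by omega)
  have := finA 1 (by omega)
  have := finA 2 (by omega)
  have := finB 0 (by omega)
  have := finB 1 (by omega)
  have := finB 2 (by omega)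
  have := finC 0 (by omega)
  have := finC 1 (by omega)
  have := finC 2 (by omega)
  have e0 : finrank k (LinearMap.range ((LC.cxMap hA hB f).mapH 0)) =
      finrank k ((LC.cx hA).H 0) := LinearMap.finrank_range_of_inj se.mapH_zero_injective
  have eB0 : finrank k ((LC.cx hB).H 0) =
      finrank k (LinearMap.range ((LC.cxMap hA hB f).mapH 0)) +
        finrank k (LinearMap.range ((LC.cxMap hB hC g).mapH 0)) :=
    finrank_eq_range_add_range' _ _ (se.exact_mapH_mapH 0)
  have eC0 : finrank k ((LC.cx hC).H 0) =
      finrank k (LinearMap.range ((LC.cxMap hB hC g).mapH 0)) +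
        finrank k (LinearMap.range (se.δH 0)) :=
    finrank_eq_range_add_range' _ _ (se.exact_mapH_δH 0)
  have eA1 : finrank k ((LC.cx hA).H 1) =
      finrank k (LinearMap.range (se.δH 0)) +
        finrank k (LinearMap.range ((LC.cxMap hA hB f).mapH 1)) :=
    finrank_eq_range_add_range' _ _ (se.exact_δH_mapH 0)
  have eB1 : finrank k ((LC.cx hB).H 1) =
      finrank k (LinearMap.range ((LC.cxMap hA hB f).mapH 1)) +
        finrank k (LinearMap.range ((LC.cxMap hB hC g).mapH 1)) :=
    finrank_eq_range_add_range' _ _ (se.exact_mapH_mapH 1)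
  have eC1 : finrank k ((LC.cx hC).H 1) =
      finrank k (LinearMap.range ((LC.cxMap hB hC g).mapH 1)) +
        finrank k (LinearMap.range (se.δH 1)) :=
    finrank_eq_range_add_range' _ _ (se.exact_mapH_δH 1)
  have eA2 : finrank k ((LC.cx hA).H 2) =
      finrank k (LinearMap.range (se.δH 1)) +
        finrank k (LinearMap.range ((LC.cxMap hA hB f).mapH 2)) :=
    finrank_eq_range_add_range' _ _ (se.exact_δH_mapH 1)
  have eB2 : finrank k ((LC.cx hB).H 2) =
      finrank k (LinearMap.range ((LC.cxMap hA hB f).mapH 2)) +
        finrank k (LinearMap.range ((LC.cxMap hB hC g).mapH 2)) :=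
    finrank_eq_range_add_range' _ _ (se.exact_mapH_mapH 2)
  omega

/-- The rank of `H²(B) → H²(C)` is at most `h²(C)`. -/
theorem finrank_range_mapH_le (hB : IsSmooth L B) (hC : IsSmooth L C) (g : B ⟶ C) (n : ℕ)
    [Module.Finite k ((LC.cx hC).H n)] :
    finrank k (LinearMap.range ((LC.cxMap hB hC g).mapH n)) ≤ finrank k ((LC.cx hC).H n) :=
  Submodule.finrank_le _

end Count

end Fermat.Agent.TW.Euler.H2Surj
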