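import Mathlib
import Fermat.Agent.CFT.PT.RepZ
import Fermat.Agent.CFT.LC.PrimeToPCompare

/-!
# PROGRAM G (S56), block GW-Euler, node EU-2: `k`-dialect versus `ℤ`-dialect for `H²`

For `f : A ⟶ B` a morphism of smooth `k`-representations, `repZMap f : repZ A ⟶ repZ B` is the same
map between the underlying `ℤ`-representations.  Surjectivity of `H²(f)` (cohomology of the LC
complexes) can be checked on the `ℤ`-side: the cocycles and coboundaries are the same.
-/

set_option autoImplicit false

open CategoryTheory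

noncomputable section

namespace Fermat.Agent.TW.Euler.H2Surj

open Fermat.Agent.CFT Fermat.Agent.CFT.PT HExt

variable {k G : Type} [CommRing k] [Group G]

/-- The morphism between the underlying `ℤ`-representations. -/
def repZMap {A B : Rep k G} (f : A ⟶ B) : repZ A ⟶ repZ B :=
  Rep.ofHom ⟨f.hom.toLinearMap.toAddMonoidHom.toIntLinearMap, fun g => LinearMap.ext fun a =>
    Rep.hom_comm_apply f g a⟩

@[simp] theorem repZMap_hom_apply {A B : Rep k G} (f : A ⟶ B) (a : A) :
    (repZMap f).hom (show repZ A from a) = f.hom a := rfl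

variable {L : LevelStructure G} {A B : Rep k G}

/-- `H²(f)` is surjective on the cohomology of LC complexes iff it is so on `LC.H2`. -/
theorem mapH2_surjective_iff_mapLC2 {k' G' : Type} [CommRing k'] [Group G']
    {L' : LevelStructure G'} {A' B' : Rep k' G'} (hA : IsSmooth L' A') (hB : IsSmooth L' B')
    (f : A' ⟶ B') :
    Function.Surjective ((LC.cxMap hA hB f).mapH 2) ↔ Function.Surjective (LC.mapLC2 hA hB f) := by
  constructor
  · intro h y
    obtain ⟨x, hx⟩ := h ((LC.h2Equiv hB).symm y)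
    refine ⟨LC.h2Equiv hA x, ?_⟩
    rw [LC.mapLC2_h2Equiv, hx, LinearEquiv.apply_symm_apply]
  · intro h y
    obtain ⟨x, hx⟩ := h (LC.h2Equiv hB y)
    refine ⟨(LC.h2Equiv hA).symm x, (LC.h2Equiv hB).injective ?_⟩
    rw [← LC.mapLC2_h2Equiv, LinearEquiv.apply_symm_apply, hx]

/-- **Surjectivity of `H²(f)` can be checked on the underlying `ℤ`-representations.** -/
theorem mapH2_surjective_of_repZ (hA : IsSmooth L A) (hB : IsSmooth L B) (f : A ⟶ B)
    (h : Function.Surjective ((LC.cxMap ((isSmooth_repZ_iff L A).2 hA)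
      ((isSmooth_repZ_iff L B).2 hB) (repZMap f)).mapH 2)) :
    Function.Surjective ((LC.cxMap hA hB f).mapH 2) := by
  rw [mapH2_surjective_iff_mapLC2] at h ⊢
  intro y
  obtain ⟨z, rfl⟩ := Submodule.mkQ_surjective _ y
  obtain ⟨x', hx'⟩ := h (LC.H2π L (repZ B) (repZZ₂Equiv L B z))
  obtain ⟨w', rfl⟩ := Submodule.mkQ_surjective _ x'
  refine ⟨LC.H2π L A ((repZZ₂Equiv L A).symm w'), (repZH2Equiv L B).injective ?_⟩
  change LC.mapLC2 _ _ (repZMap f) (LC.H2π L (repZ A) w') = _ at hx'
  rw [LC.mapLC2_H2π] at hx'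
  rw [LC.mapLC2_H2π]
  change repZH2Equiv L B (LC.H2π L B _) = repZH2Equiv L B (LC.H2π L B z)
  rw [repZH2Equiv_mk, repZH2Equiv_mk, ← hx']
  rfl

end Fermat.Agent.TW.Euler.H2Surj

end
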