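import Mathlib
import Fermat.Agent.CFT.PT.DualTwistDict
import Fermat.Agent.CFT.Global.GlobalG0
import Fermat.Agent.CFT.HyperExt.LCHom
import Fermat.Agent.S55.LCBridgeGlobal

/-!
# PROGRAM G (S56), block GW-Euler, node EU-2: kernels and Tate-twisted duals of morphisms

* `kerRep g`, `kerIncl g`: the kernel of a morphism of representations, finite-dimensional and
  smooth with its target; `kerIncl_exact`;
* `dualTwMap g : dualTw p C ⟶ dualTw p B`: the transpose of `g : B ⟶ C`; injective if `g` is
  surjective, surjective if `g` is injective, and exact sequences go to exact sequences;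
* `isSmooth_dualTw`: the Tate-twisted dual of a finite-dimensional module smooth for `globalLevel T`
  (`p ∈ T`) is smooth for `globalLevel T`.
-/

set_option autoImplicit false

open CategoryTheory

noncomputable section

namespace Fermat.Agent.TW.Euler.H2Surj

open Fermat.Agent.CFT Fermat.Agent.CFT.PT Fermat.Agent.S55 ExtCitation

local notation "GQ" => (AlgebraicClosure ℚ ≃ₐ[ℚ] AlgebraicClosure ℚ)

section Ker

variable {k G : Type} [CommRing k] [Group G] {B C : Rep.{0} k G} (g : B ⟶ C)

lemma ker_le_comap (s : G) :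
    LinearMap.ker g.hom.toLinearMap ≤ (LinearMap.ker g.hom.toLinearMap).comap (B.ρ s) := by
  intro x hx
  rw [Submodule.mem_comap, LinearMap.mem_ker]
  rw [LinearMap.mem_ker] at hx
  change g.hom (B.ρ s x) = 0
  have hx' : g.hom x = 0 := hx
  rw [Rep.hom_comm_apply, hx', map_zero]

/-- The kernel of a morphism of representations. -/
def kerRep : Rep.{0} k G :=
  Rep.subrepresentation B (LinearMap.ker g.hom.toLinearMap) (ker_le_comap g)

/-- The inclusion of the kernel. -/
def kerIncl : kerRep g ⟶ B :=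
  Rep.subtype B (LinearMap.ker g.hom.toLinearMap) (ker_le_comap g)

lemma kerIncl_injective : Function.Injective (kerIncl g).hom := Subtype.val_injective

lemma kerIncl_exact : Function.Exact (kerIncl g).hom g.hom := by
  intro b
  constructor
  · intro hb
    exact ⟨⟨b, LinearMap.mem_ker.2 hb⟩, rfl⟩
  · rintro ⟨a, rfl⟩
    exact LinearMap.mem_ker.1 a.2

theorem moduleFinite_kerRep [Module.Finite k B] [IsNoetherianRing k] :
    Module.Finite k (kerRep g) :=
  inferInstanceAs (Module.Finite k ↥(LinearMap.ker g.hom.toLinearMap))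

lemma isSmooth_kerRep {L : LevelStructure G} (hB : IsSmooth L B) : IsSmooth L (kerRep g) :=
  IsSmooth.of_injective (kerIncl g) (kerIncl_injective g) hB

end Ker

section Dual

variable (p : ℕ) [hp : Fact p.Prime] {A B C : Rep (ZMod p) GQ}

/-- The transpose `C' ⟶ B'` of `g : B ⟶ C` between the Tate-twisted duals. -/
def dualTwMap (g : B ⟶ C) : dualTw p C ⟶ dualTw p B :=
  Rep.ofHom ⟨g.hom.toLinearMap.dualMap, fun s => LinearMap.ext fun φ => by
    change ((dualTw p C).ρ s φ) ∘ₗ g.hom.toLinearMap = (dualTw p B).ρ s (φ ∘ₗ g.hom.toLinearMap)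
    rw [Rep.dualTwist_ρ_apply, Rep.dualTwist_ρ_apply]
    refine LinearMap.ext fun b => ?_
    change (cycloChar p s : ZMod p) • φ (C.ρ s⁻¹ (g.hom b)) =
      (cycloChar p s : ZMod p) • φ (g.hom (B.ρ s⁻¹ b))
    rw [Rep.hom_comm_apply]⟩

theorem dualTwMap_hom_apply (g : B ⟶ C) (φ : Module.Dual (ZMod p) C) (b : B) :
    (show Module.Dual (ZMod p) B from (dualTwMap p g).hom (show dualTw p C from φ)) b =
      φ (g.hom b) := rfl

theorem dualTwMap_injective (g : B ⟶ C) (hg : Function.Surjective g.hom) :
    Function.Injective (dualTwMap p g).hom :=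
  LinearMap.dualMap_injective_of_surjective (f := g.hom.toLinearMap) hg

theorem dualTwMap_surjective (f : A ⟶ B) (hf : Function.Injective f.hom) :
    Function.Surjective (dualTwMap p f).hom :=
  LinearMap.dualMap_surjective_of_injective (f := f.hom.toLinearMap) hf

theorem dualTwMap_exact (f : A ⟶ B) (g : B ⟶ C) (hfg : Function.Exact f.hom g.hom) :
    Function.Exact (dualTwMap p g).hom (dualTwMap p f).hom := by
  have h1 : LinearMap.ker g.hom.toLinearMap = LinearMap.range f.hom.toLinearMap :=
    LinearMap.exact_iff.1 hfg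
  have h2 : LinearMap.ker f.hom.toLinearMap.dualMap = LinearMap.range g.hom.toLinearMap.dualMap := by
    rw [LinearMap.ker_dualMap_eq_dualAnnihilator_range, ← h1,
      LinearMap.range_dualMap_eq_dualAnnihilator_ker]
  exact LinearMap.exact_iff.2 h2

/-- The Tate-twisted dual of a finite-dimensional smooth module is smooth (`p ∈ T`). -/
theorem isSmooth_dualTw (T : Finset Nat.Primes) (hpT : pPrime p ∈ T) (M : Rep (ZMod p) GQ)
    [FiniteDimensional (ZMod p) M] (hM : IsSmooth (globalLevel T) M) :
    IsSmooth (globalLevel T) (dualTw p M) := by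
  obtain ⟨N₁, hN₁, hfix⟩ := hM.exists_level_of_moduleFinite
  obtain ⟨N₂, hN₂, hle₂⟩ := isOpen_globalG0 (p := p) T hpT
  obtain ⟨N, hN, hle⟩ := (globalLevel T).directed hN₁ hN₂
  intro φ
  refine ⟨N, hN, fun s hs => ?_⟩
  have hs₁ : s⁻¹ ∈ N₁ := N₁.inv_mem ((le_inf_iff.1 hle).1 hs)
  have hs₂ : s ∈ (cycloChar p).ker := by
    rw [← globalG0_eq_ker_cycloChar]
    exact hle₂ ((le_inf_iff.1 hle).2 hs)
  rw [Rep.dualTwist_ρ_apply, MonoidHom.mem_ker.1 hs₂, Units.val_one, one_smul]
  refine LinearMap.ext fun m => ?_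
  change (show Module.Dual (ZMod p) M from φ) (M.ρ s⁻¹ m) = _
  rw [hfix s⁻¹ hs₁ m]

theorem finiteDimensional_dualTw (M : Rep (ZMod p) GQ) [FiniteDimensional (ZMod p) M] :
    FiniteDimensional (ZMod p) (dualTw p M) :=
  inferInstanceAs (FiniteDimensional (ZMod p) (Module.Dual (ZMod p) M))

end Dual

end Fermat.Agent.TW.Euler.H2Surj

end
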