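import Mathlib
import Fermat.Agent.TW.GWB.MidN

/-!
# PROGRAM G (S56), block GW-Euler, node EU-2: the local pairing `H²(G_v, M₀) × H⁰(G_v, N) → ℤ/p`

Degree-two twin of `CFT/PT/MiddleH1.lean` (`tateLoc`, helper21).  Setting: `p` a prime, `S ∋ p`,
`N` a finite smooth `p`-torsion `ℤ[G_ℚ]`-module, `M₀` smooth with a bijective
`θ₀ : M₀ ⟶ Hom(N, μ_p)`.

* `tateLoc2 invL q : H²(G_{ℚ_q}, M₀) →+ H⁰(G_{ℚ_q}, N) →+ ℤ/p`;
* `coe_pairP_midIdentLocN2`: it is `invL q` of the cup product of the pairing `M₀ × N → ℚ̄_qˣ`;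
* `tateLoc2_bijective`: for `invL q = invLoc p q` it identifies `H²(G_{ℚ_q}, M₀)` with the dual of
  `H⁰(G_{ℚ_q}, N)` (local Tate duality in degrees `(2, 0)`).
-/

set_option autoImplicit false
set_option linter.unusedSectionVars false
set_option linter.style.haveILetI false

open CategoryTheory ExtCitation

noncomputable section

namespace Fermat.Agent.TW.Euler.H2Surj

open Fermat.Agent.CFT Fermat.Agent.CFT.PT Fermat.Agent.S55 HExt LatticePair Fermat.Agent.TW.GWB

local notation "Qb" => AlgebraicClosure ℚ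
local notation "GQ" => (AlgebraicClosure ℚ ≃ₐ[ℚ] AlgebraicClosure ℚ)

attribute [local instance 2000] Rep.hV2
attribute [local instance 3000] projective_P₀_of_free projective_P₁_of_free
attribute [local instance 3000] moduleFinite_of_finite_rep

variable (p : ℕ) [hp : Fact p.Prime] (S : Finset Nat.Primes) (hpS : pPrime p ∈ S)
  (N : Rep.{0} ℤ GQ) [Finite N] (hN : IsSmooth (globalLevel S) N) (hpN : ∀ n : N, p • n = 0)
  {M₀ : Rep.{0} ℤ GQ} (hM₀ : IsSmooth (globalLevel S) M₀)
  (θ₀ : M₀ ⟶ (Rep.ihom N).obj (muRep p)) (hθ₀ : Function.Bijective θ₀.hom)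
  (invL : ∀ q : ↥S, LC.Hp p (isSmooth_primeUnitsRep q.1) 2 →+ ZMod p)

/-- **The local pairing** `H²(G_{ℚ_q}, M₀) × H⁰(G_{ℚ_q}, N) → ℤ/p` attached to the invariant map
`invL q`. -/
def tateLoc2 (q : ↥S) :
    (LC.cx (hM₀.res ((levelComap_global S).compat q))).H 2 →+
      ((LC.cx ((zResR N hN).res ((levelComap_global S).compat q)).smooth).H 0 →+ ZMod p) :=
  (((zResR N hN).res ((levelComap_global S).compat q)).dual2 p (isSmooth_primeUnitsRep q.1)
      (hpN_res (r := fun q : ↥S => primeLocalToGlobal q.1) p hpN q) (invL q)).comp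
    (midIdentLocN p S hpS N hN hpN hM₀ θ₀ hθ₀ q 2).toAddMonoidHom

theorem tateLoc2_eq (q : ↥S)
    (x : (LC.cx (hM₀.res ((levelComap_global S).compat q))).H 2)
    (c : (LC.cx ((zResR N hN).res ((levelComap_global S).compat q)).smooth).H 0) :
    tateLoc2 p S hpS N hN hpN hM₀ θ₀ hθ₀ invL q x c =
      invL q (((zResR N hN).res ((levelComap_global S).compat q)).pairP p
        (isSmooth_primeUnitsRep q.1)
        (hpN_res (r := fun q : ↥S => primeLocalToGlobal q.1) p hpN q) 1 0 rfl
        (midIdentLocN p S hpS N hN hpN hM₀ θ₀ hθ₀ q 2 x) c) := rfl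

/-- The local pairing in degrees `(2, 0)` is the invariant of the cup product. -/
theorem coe_pairP_midIdentLocN2 (q : ↥S)
    (x : (LC.cx (hM₀.res ((levelComap_global S).compat q))).H 2)
    (c : (LC.cx ((zResR N hN).res ((levelComap_global S).compat q)).smooth).H 0) :
    ((((zResR N hN).res ((levelComap_global S).compat q)).pairP p (isSmooth_primeUnitsRep q.1)
        (hpN_res (r := fun q : ↥S => primeLocalToGlobal q.1) p hpN q) 1 0 rfl
        (midIdentLocN p S hpS N hN hpN hM₀ θ₀ hθ₀ q 2 x) c :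
          LC.Hp p (isSmooth_primeUnitsRep q.1) 2) :
        (LC.cx (isSmooth_primeUnitsRep q.1)).H 2) =
      (LC.cxPairing (tatePair p S hpS N θ₀ q) (hM₀.res ((levelComap_global S).compat q))
        ((zResR N hN).res ((levelComap_global S).compat q)).smooth
        (isSmooth_primeUnitsRep q.1)).cupH 2 0 2 rfl x c :=
  (zResR N hN).pair_identHLoc (levelComap_global S)
    (esToJsHom (globalLevel S) Qb (↑S : Set Nat.Primes))
    (fun q : ↥S => isSmooth_primeUnitsRep q.1) (evQ (globalLevel S) S)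
    (mid_hsurjY p S N hN hpN) hM₀ (midTheta p S hpS N θ₀)
    (midTheta_thetaLoc_bijective p S hpS N hpN θ₀ hθ₀) q 1 0 1 rfl x c

/-- **Local Tate duality in degrees `(2, 0)`**: for the local invariant maps `invLoc`, the pairing
identifies `H²(G_{ℚ_q}, M₀)` with the dual of `H⁰(G_{ℚ_q}, N)`. -/
theorem tateLoc2_bijective (q : ↥S) :
    Function.Bijective
      (tateLoc2 p S hpS N hN hpN hM₀ θ₀ hθ₀ (fun q : ↥S => invLoc p q.1) q) := by
  have h1 : Function.Bijective
      (((zResR N hN).res ((levelComap_global S).compat q)).dual2 p (isSmooth_primeUnitsRep q.1)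
        (hpN_res (r := fun q : ↥S => primeLocalToGlobal q.1) p hpN q) (invLoc p q.1)) :=
    ((zResR_res_isPerfect_iff N hN ((levelComap_global S).compat q)
      (isSmooth_primeUnitsRep q.1) p hpN (invLoc p q.1)).2
      (local_duality p q.1 ⟨Rep.res (primeLocalToGlobal q.1) N,
        hN.res ((levelComap_global S).compat q), hpN⟩)).2
  exact h1.comp (midIdentLocN p S hpS N hN hpN hM₀ θ₀ hθ₀ q 2).bijective

end Fermat.Agent.TW.Euler.H2Surj

end
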