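import Mathlib
import Fermat.Agent.TW.Euler.H2Surj.TateLoc2

/-!
# PROGRAM G (S56), block GW-Euler, node EU-2 (LA): local `H²` is right exact

Two dual pairs `(N₁, M₁, θ₁)`, `(N₂, M₂, θ₂)` (setting of `TateLoc2.lean`) and morphisms
`u : M₁ ⟶ M₂`, `w : N₂ ⟶ N₁` which are adjoint for the pairings:
`θ₂(u m)(x) = θ₁(m)(w x)`.

* `tateLoc2_natural`: `⟨u_* x, c⟩₂ = ⟨x, w_* c⟩₁` (naturality of the cup product, twice);
* `local_H2_surjective`: if `w` is injective then `u_* : H²(G_{ℚ_q}, M₁) → H²(G_{ℚ_q}, M₂)` is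
  surjective (local Tate duality in degrees `(2, 0)` for both pairs + extension of characters).
-/

set_option autoImplicit false
set_option linter.unusedSectionVars false
set_option linter.style.haveILetI false

open CategoryTheory ExtCitation

noncomputable section

namespace Fermat.Agent.TW.Euler.H2Surj

open Fermat.Agent.CFT Fermat.Agent.CFT.PT Fermat.Agent.S55 HExt LatticePair Fermat.Agent.TW.GWB

local notation "Qb" => AlgebraicClosure ℚ
local notation "GQ" => (AlgebraicClosure ℚ ≃ₐ[ℚ] AlgebraicClosure ℚ)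

attribute [local instance 2000] Rep.hV2
attribute [local instance 3000] projective_P₀_of_free projective_P₁_of_free
attribute [local instance 3000] moduleFinite_of_finite_rep

section Generalities

/-- Characters with values in `ℤ/p` of `𝔽_p`-vector spaces extend along injections. -/
theorem exists_extend_addMonoidHom_zmod_aux {p : ℕ} [Fact p.Prime] {V W : Type*} [AddCommGroup V]
    [AddCommGroup W] [Module (ZMod p) V] [Module (ZMod p) W] (ι : W →+ V)
    (hι : Function.Injective ι) (φ : W →+ ZMod p) : ∃ ψ : V →+ ZMod p, ∀ w, ψ (ι w) = φ w := by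
  obtain ⟨g, hg⟩ := LinearMap.exists_leftInverse_of_injective (ι.toZModLinearMap p)
    (LinearMap.ker_eq_bot.2 hι)
  refine ⟨((φ.toZModLinearMap p).comp g).toAddMonoidHom, fun w => ?_⟩
  have h1 : g (ι w) = w := LinearMap.congr_fun hg w
  change φ (g (ι w)) = φ w
  rw [h1]

/-- Characters with values in `ℤ/p` of `p`-torsion groups extend along injections. -/
theorem exists_extend_addMonoidHom_zmod {p : ℕ} [Fact p.Prime] {V W : Type*} [AddCommGroup V]
    [AddCommGroup W] (hV : ∀ v : V, p • v = 0) (hW : ∀ w : W, p • w = 0) (ι : W →+ V)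
    (hι : Function.Injective ι) (φ : W →+ ZMod p) : ∃ ψ : V →+ ZMod p, ∀ w, ψ (ι w) = φ w := by
  letI : Module (ZMod p) V := AddCommGroup.zmodModule hV
  letI : Module (ZMod p) W := AddCommGroup.zmodModule hW
  exact exists_extend_addMonoidHom_zmod_aux ι hι φ

variable {k G : Type} [CommRing k] [Group G] {L : LevelStructure G} {A B : Rep.{0} k G}

/-- `H⁰` of an injective morphism is injective. -/
theorem mapH_zero_injective_of_injective (hA : IsSmooth L A) (hB : IsSmooth L B) (f : A ⟶ B)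
    (hf : Function.Injective f.hom) : Function.Injective ((LC.cxMap hA hB f).mapH 0) := by
  rw [← LinearMap.ker_eq_bot, LinearMap.ker_eq_bot']
  intro x hx
  induction x using Cx.H.induction_on with
  | _ z hz =>
    rw [Cx.Hom.mapH_mk, Cx.H.mk_eq_zero_iff_zero] at hx
    rw [Cx.H.mk_eq_zero_iff_zero]
    exact hf (hx.trans (map_zero _).symm)

end Generalities

variable (p : ℕ) [hp : Fact p.Prime] (S : Finset Nat.Primes) (hpS : pPrime p ∈ S)
  (N₁ N₂ : Rep.{0} ℤ GQ) [Finite N₁] [Finite N₂]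
  (hN₁ : IsSmooth (globalLevel S) N₁) (hN₂ : IsSmooth (globalLevel S) N₂)
  (hpN₁ : ∀ n : N₁, p • n = 0) (hpN₂ : ∀ n : N₂, p • n = 0)
  {M₁ M₂ : Rep.{0} ℤ GQ} (hM₁ : IsSmooth (globalLevel S) M₁) (hM₂ : IsSmooth (globalLevel S) M₂)
  (θ₁ : M₁ ⟶ (Rep.ihom N₁).obj (muRep p)) (hθ₁ : Function.Bijective θ₁.hom)
  (θ₂ : M₂ ⟶ (Rep.ihom N₂).obj (muRep p)) (hθ₂ : Function.Bijective θ₂.hom)
  (invL : ∀ q : ↥S, LC.Hp p (isSmooth_primeUnitsRep q.1) 2 →+ ZMod p)
  (u : M₁ ⟶ M₂) (w : N₂ ⟶ N₁)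
  (hcompat : ∀ (m : M₁) (x : N₂),
    (show N₂ →ₗ[ℤ] muRep p from θ₂.hom (u.hom m)) x =
      (show N₁ →ₗ[ℤ] muRep p from θ₁.hom m) (w.hom x))

/-- The mixed pairing `M₁ × N₂ → ℚ̄_qˣ`, `(m, x) ↦ θ₂(u m)(x) = θ₁(m)(w x)`. -/
def mixPair (q : ↥S) :
    RepPairing (Rep.res (primeLocalToGlobal q.1) M₁) (Rep.res (primeLocalToGlobal q.1) N₂)
      (primeUnitsRep q.1) :=
  LatticeRes.thetaPair (Rep.resMap (primeLocalToGlobal q.1) u ≫
    LatticeRes.thetaLoc (r := fun q : ↥S => primeLocalToGlobal q.1)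
      (esToJsHom (globalLevel S) Qb (↑S : Set Nat.Primes)) (evQ (globalLevel S) S)
      (midTheta p S hpS N₂ θ₂) q)

include hcompat in
theorem tatePair_compat (q : ↥S) (m : M₁) (x : N₂) :
    (tatePair p S hpS N₁ θ₁ q).toLin (show ↑(Rep.res (primeLocalToGlobal q.1) M₁) from m)
        ((Rep.resMap (primeLocalToGlobal q.1) w).hom
          (show ↑(Rep.res (primeLocalToGlobal q.1) N₂) from x)) =
      (mixPair p S hpS N₂ θ₂ u q).toLin (show ↑(Rep.res (primeLocalToGlobal q.1) M₁) from m)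
        (show ↑(Rep.res (primeLocalToGlobal q.1) N₂) from x) := by
  have h := hcompat m x
  change (evQ (globalLevel S) S q).hom (show ↑(Rep.res (primeLocalToGlobal q.1) _) from
      (esToJsHom (globalLevel S) Qb (↑S : Set Nat.Primes)).hom
        ((muToEs p S hpS).hom ((show N₁ →ₗ[ℤ] muRep p from θ₁.hom m) (w.hom x)))) =
    (evQ (globalLevel S) S q).hom (show ↑(Rep.res (primeLocalToGlobal q.1) _) from
      (esToJsHom (globalLevel S) Qb (↑S : Set Nat.Primes)).hom
        ((muToEs p S hpS).hom ((show N₂ →ₗ[ℤ] muRep p from θ₂.hom (u.hom m)) x)))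
  rw [h]

include hcompat in
/-- **Naturality of the local pairing in degrees `(2, 0)`**: `⟨u_* x, c⟩₂ = ⟨x, w_* c⟩₁`. -/
theorem tateLoc2_natural (q : ↥S)
    (x : (LC.cx (hM₁.res ((levelComap_global S).compat q))).H 2)
    (c : (LC.cx ((zResR N₂ hN₂).res ((levelComap_global S).compat q)).smooth).H 0) :
    tateLoc2 p S hpS N₂ hN₂ hpN₂ hM₂ θ₂ hθ₂ invL q
        ((LC.cxMap (hM₁.res ((levelComap_global S).compat q))
          (hM₂.res ((levelComap_global S).compat q))
          (Rep.resMap (primeLocalToGlobal q.1) u)).mapH 2 x) c =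
      tateLoc2 p S hpS N₁ hN₁ hpN₁ hM₁ θ₁ hθ₁ invL q x
        ((LC.cxMap ((zResR N₂ hN₂).res ((levelComap_global S).compat q)).smooth
          ((zResR N₁ hN₁).res ((levelComap_global S).compat q)).smooth
          (Rep.resMap (primeLocalToGlobal q.1) w)).mapH 0 c) := by
  rw [tateLoc2_eq, tateLoc2_eq]
  congr 1
  apply Subtype.ext
  rw [coe_pairP_midIdentLocN2, coe_pairP_midIdentLocN2]
  -- step 1: `(u_* x) ∪₂ c = x ∪_mix c`
  have k1 := LC.cxPairing_cupH_natural (mixPair p S hpS N₂ θ₂ u q) (tatePair p S hpS N₂ θ₂ q)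
    (Rep.resMap (primeLocalToGlobal q.1) u) (𝟙 _) (𝟙 _)
    (hM₁.res ((levelComap_global S).compat q))
    ((zResR N₂ hN₂).res ((levelComap_global S).compat q)).smooth (isSmooth_primeUnitsRep q.1)
    (hM₂.res ((levelComap_global S).compat q))
    ((zResR N₂ hN₂).res ((levelComap_global S).compat q)).smooth (isSmooth_primeUnitsRep q.1)
    (fun _ _ => rfl) 2 0 2 rfl x c
  rw [LC.cxMap_id_mapH, LC.cxMap_id_mapH] at k1
  -- step 2: `x ∪₁ (w_* c) = x ∪_mix c`
  have k2 := LC.cxPairing_cupH_natural (mixPair p S hpS N₂ θ₂ u q) (tatePair p S hpS N₁ θ₁ q)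
    (𝟙 _) (Rep.resMap (primeLocalToGlobal q.1) w) (𝟙 _)
    (hM₁.res ((levelComap_global S).compat q))
    ((zResR N₂ hN₂).res ((levelComap_global S).compat q)).smooth (isSmooth_primeUnitsRep q.1)
    (hM₁.res ((levelComap_global S).compat q))
    ((zResR N₁ hN₁).res ((levelComap_global S).compat q)).smooth (isSmooth_primeUnitsRep q.1)
    (fun m x => tatePair_compat p S hpS N₁ N₂ θ₁ θ₂ u w hcompat q m x) 2 0 2 rfl x c
  rw [LC.cxMap_id_mapH, LC.cxMap_id_mapH] at k2
  rw [← k1, ← k2]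

include hpS hN₁ hN₂ hpN₁ hpN₂ hθ₁ hθ₂ hcompat in
/-- **(LA) Local `H²` is right exact**: if `w : N₂ ⟶ N₁` is injective (e.g. the transpose of a
surjective `u`), then `u_* : H²(G_{ℚ_q}, M₁) → H²(G_{ℚ_q}, M₂)` is surjective. -/
theorem local_H2_surjective (hw : Function.Injective w.hom) (q : ↥S) :
    Function.Surjective
      ((LC.cxMap (hM₁.res ((levelComap_global S).compat q))
        (hM₂.res ((levelComap_global S).compat q))
        (Rep.resMap (primeLocalToGlobal q.1) u)).mapH 2) := by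
  intro y
  have hb₁ := tateLoc2_bijective p S hpS N₁ hN₁ hpN₁ hM₁ θ₁ hθ₁ q
  have hb₂ := tateLoc2_bijective p S hpS N₂ hN₂ hpN₂ hM₂ θ₂ hθ₂ q
  -- extend the character `⟨y, -⟩₂` of `H⁰(N₂)` along `w_* : H⁰(N₂) ↪ H⁰(N₁)`
  have hinj : Function.Injective
      ((LC.cxMap ((zResR N₂ hN₂).res ((levelComap_global S).compat q)).smooth
        ((zResR N₁ hN₁).res ((levelComap_global S).compat q)).smooth
        (Rep.resMap (primeLocalToGlobal q.1) w)).mapH 0) :=
    mapH_zero_injective_of_injective _ _ _ hw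
  obtain ⟨ψ, hψ⟩ := exists_extend_addMonoidHom_zmod (p := p)
    (fun v => LC.nsmul_H_eq_zero
      ((zResR N₁ hN₁).res ((levelComap_global S).compat q)).smooth p
      (hpN_res (r := fun q : ↥S => primeLocalToGlobal q.1) p hpN₁ q) 0 v)
    (fun v => LC.nsmul_H_eq_zero
      ((zResR N₂ hN₂).res ((levelComap_global S).compat q)).smooth p
      (hpN_res (r := fun q : ↥S => primeLocalToGlobal q.1) p hpN₂ q) 0 v)
    ((LC.cxMap ((zResR N₂ hN₂).res ((levelComap_global S).compat q)).smooth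
        ((zResR N₁ hN₁).res ((levelComap_global S).compat q)).smooth
        (Rep.resMap (primeLocalToGlobal q.1) w)).mapH 0).toAddMonoidHom hinj
    (tateLoc2 p S hpS N₂ hN₂ hpN₂ hM₂ θ₂ hθ₂ (fun q : ↥S => invLoc p q.1) q y)
  obtain ⟨x, hx⟩ := hb₁.2 ψ
  refine ⟨x, hb₂.1 (AddMonoidHom.ext fun c => ?_)⟩
  rw [tateLoc2_natural p S hpS N₁ N₂ hN₁ hN₂ hpN₁ hpN₂ hM₁ hM₂ θ₁ hθ₁ θ₂ hθ₂ _ u w hcompat q x c,
    hx]
  exact hψ c

end Fermat.Agent.TW.Euler.H2Surj

end
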