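import Mathlib
import Fermat.Agent.TW.Euler.H2Surj.LocalH2Surj
import Fermat.Agent.TW.Euler.H2Surj.Dialect
import Fermat.Agent.TW.Euler.H2Surj.KerRep
import Fermat.Agent.CFT.PT.ShaIdent

/-!
# PROGRAM G (S56), block GW-Euler, node EU-2 (LA), `𝔽_p`-dialect

`p ∈ T`, `B`, `C` finite-dimensional `𝔽_p`-representations of `G_ℚ` smooth for `globalLevel T`,
`g : B ⟶ C` surjective, `v ∈ T`.  Then `H²(G_{ℚ_v}, B) → H²(G_{ℚ_v}, C)` (cohomology of the LC
complexes of the restrictions) is surjective: `LocalH2Surj.local_H2_surjective` for the dual pairs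
`(repZ B', repZ B, dualTwistIso)`, `(repZ C', repZ C, dualTwistIso)` and the transpose of `g`.
-/

set_option autoImplicit false
set_option linter.unusedSectionVars false

open CategoryTheory ExtCitation

noncomputable section

namespace Fermat.Agent.TW.Euler.H2Surj

open Fermat.Agent.CFT Fermat.Agent.CFT.PT Fermat.Agent.S55 HExt

local notation "GQ" => (AlgebraicClosure ℚ ≃ₐ[ℚ] AlgebraicClosure ℚ)

attribute [local instance 2000] Rep.hV2
attribute [local instance 3000] finite_repZ

variable (p : ℕ) [hp : Fact p.Prime] (T : Finset Nat.Primes) (hpT : pPrime p ∈ T)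
  (B C : Rep (ZMod p) GQ) [FiniteDimensional (ZMod p) B] [FiniteDimensional (ZMod p) C]
  (hB : IsSmooth (globalLevel T) B) (hC : IsSmooth (globalLevel T) C) (g : B ⟶ C)

include hpT in
/-- **(LA), `𝔽_p`-dialect**: local `H²` is right exact. -/
theorem local_H2_surjective_zmod (hg : Function.Surjective g.hom) (v : ↥T) :
    Function.Surjective
      ((LC.cxMap (hB.res ((levelComap_global T).compat v)) (hC.res ((levelComap_global T).compat v))
        (Rep.resMap (primeLocalToGlobal v.1) g)).mapH 2) := by
  apply mapH2_surjective_of_repZ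
  have hB' := isSmooth_dualTw p T hpT B hB
  have hC' := isSmooth_dualTw p T hpT C hC
  exact local_H2_surjective p T hpT (repZ (dualTw p B)) (repZ (dualTw p C))
    ((isSmooth_repZ_iff (globalLevel T) (dualTw p B)).2 hB')
    ((isSmooth_repZ_iff (globalLevel T) (dualTw p C)).2 hC')
    (nsmul_repZ_eq_zero p (dualTw p B)) (nsmul_repZ_eq_zero p (dualTw p C))
    ((isSmooth_repZ_iff (globalLevel T) B).2 hB) ((isSmooth_repZ_iff (globalLevel T) C).2 hC)
    (dualTwistIso p B).hom (dualTwistIso_hom_bijective p B)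
    (dualTwistIso p C).hom (dualTwistIso_hom_bijective p C)
    (repZMap g) (repZMap (dualTwMap p g)) (fun _ _ => rfl)
    (dualTwMap_injective p g hg) v

end Fermat.Agent.TW.Euler.H2Surj

end
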