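import Mathlib
import Fermat.Agent.TW.GW.CountDual

/-!
# PROGRAM G (S56), block GW-Euler, node EU-2: the abstract SUM FORMULA and the squeeze arithmetic

* `sum_formula`: for a dual pair `(X, X')` with global groups `H1, H1', H2, H2'`, local groups
  `P1 v, P1' v, P2 v, P2' v`, localisation maps, perfect local pairings `B v` on `P1 v × P1' v`,
  middle exactness (`hex`), `dim Ш¹ = dim Ш²` of the dual both ways (`hsha, hsha'`) and the end
  exactness both ways as equalities (`hend, hend'`):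

  `h⁰ + h² + h⁰' + h²' + Σ_v h¹_v = h¹ + h¹' + Σ_v (h²_v + h²_v')`.

* `squeeze_arith`: from the three long exact sequence counts (global, global for the dual sequence,
  local with local surjectivity), the three sum formulas and `h²_v(X') = h⁰_v(X)`:
  `rank (H²(B) → H²(C)) = h²(C)`.
-/

set_option autoImplicit false

open Module

namespace Fermat.Agent.TW.Euler.H2Surj

open Fermat.Agent.TW.GW.LinAlg Fermat.Agent.TW.GW.Count Fermat.Agent.TW.GW.CountDual

section SumFormula

variable {k : Type*} [Field k] {ι : Type*} [Fintype ι] [DecidableEq ι]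
  {H1 H1' H2 H2' : Type*} [AddCommGroup H1] [Module k H1] [AddCommGroup H1'] [Module k H1']
  [AddCommGroup H2] [Module k H2] [AddCommGroup H2'] [Module k H2']
  [FiniteDimensional k H1] [FiniteDimensional k H1'] [FiniteDimensional k H2]
  [FiniteDimensional k H2']
  {P1 P1' P2 P2' : ι → Type*}
  [∀ v, AddCommGroup (P1 v)] [∀ v, Module k (P1 v)] [∀ v, FiniteDimensional k (P1 v)]
  [∀ v, AddCommGroup (P1' v)] [∀ v, Module k (P1' v)]
  [∀ v, AddCommGroup (P2 v)] [∀ v, Module k (P2 v)]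
  [∀ v, AddCommGroup (P2' v)] [∀ v, Module k (P2' v)]

/-- **The abstract SUM FORMULA** `χ(X) + χ(X') = Σ_v (h²_v(X) + h²_v(X') - h¹_v(X))`, written
additively in `ℕ`. -/
theorem sum_formula (loc1 : H1 →ₗ[k] ∀ v, P1 v) (loc1' : H1' →ₗ[k] ∀ v, P1' v)
    (loc2 : H2 →ₗ[k] ∀ v, P2 v) (loc2' : H2' →ₗ[k] ∀ v, P2' v)
    (B : ∀ v, P1 v →ₗ[k] P1' v →ₗ[k] k) (hB : ∀ v, Function.Bijective (B v).flip)
    (hex : ∀ y : ∀ v, P1' v, y ∈ LinearMap.range loc1' ↔ ∀ x : H1, ∑ v, B v (loc1 x v) (y v) = 0)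
    (hsha : finrank k (LinearMap.ker loc1) = finrank k (LinearMap.ker loc2'))
    (hsha' : finrank k (LinearMap.ker loc1') = finrank k (LinearMap.ker loc2))
    (h0 h0' : ℕ)
    (hend : ∑ v, finrank k (P2 v) = finrank k (LinearMap.range loc2) + h0')
    (hend' : ∑ v, finrank k (P2' v) = finrank k (LinearMap.range loc2') + h0) :
    h0 + finrank k H2 + h0' + finrank k H2' + ∑ v, finrank k (P1 v) =
      finrank k H1 + finrank k H1' + (∑ v, finrank k (P2 v) + ∑ v, finrank k (P2' v)) := by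
  have hmid := finrank_range_add_finrank_range loc1 loc1' (totalPairing B)
    (totalPairing_flip_bijective B hB)
    (fun y => by simpa only [totalPairing_apply] using hex y)
  rw [Module.finrank_pi_fintype] at hmid
  have r1 := LinearMap.finrank_range_add_finrank_ker loc1
  have r1' := LinearMap.finrank_range_add_finrank_ker loc1'
  have r2 := LinearMap.finrank_range_add_finrank_ker loc2
  have r2' := LinearMap.finrank_range_add_finrank_ker loc2'
  omega

end SumFormula

/-- **The squeeze arithmetic.**  `x0, x1, x2` are the global `h⁰, h¹, h²` of `X ∈ {A, B, C}`,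
primes denote the duals, `sx0, sx1, sx2` the sums over `v` of the local dimensions, `r` (`r'`) the
rank of `H²(B) → H²(C)` (of `H²(B') → H²(A')`). -/
theorem squeeze_arith
    (a0 a1 a2 b0 b1 b2 c0 c1 c2 a0' a1' a2' b0' b1' b2' c0' c1' c2' r r' : ℕ)
    (sa0 sa1 sa2 sb0 sb1 sb2 sc0 sc1 sc2 sa2' sb2' sc2' : ℕ)
    (hr' : r' ≤ a2')
    (glob : a0 + c0 + b1 + a2 + r = b0 + a1 + c1 + b2)
    (glob' : c0' + a0' + b1' + c2' + r' = b0' + c1' + a1' + b2')
    (loc : sa0 + sc0 + sb1 + sa2 + sc2 = sb0 + sa1 + sc1 + sb2)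
    (sfA : a0 + a2 + a0' + a2' + sa1 = a1 + a1' + (sa2 + sa2'))
    (sfB : b0 + b2 + b0' + b2' + sb1 = b1 + b1' + (sb2 + sb2'))
    (sfC : c0 + c2 + c0' + c2' + sc1 = c1 + c1' + (sc2 + sc2'))
    (dA : sa2' = sa0) (dB : sb2' = sb0) (dC : sc2' = sc0) : c2 ≤ r := by
  omega

end Fermat.Agent.TW.Euler.H2Surj
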