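import Mathlib
import Fermat.Agent.TW.GWB.Out
import Fermat.Agent.TW.Euler.Contracts
import Fermat.Agent.TW.Euler.H2Surj.Squeeze

/-!
# PROGRAM G (S56), block GW-Euler, node EU-2: the SUM FORMULA in level-cohomology language

`p` odd, `p ∈ T`, `M`, `M'` finite-dimensional `𝔽_p[G_ℚ]`-modules smooth for `globalLevel T`, dual to
each other through bijective morphisms `θ₀ : repZ M' ⟶ Hom(repZ M, μ_p)` and
`θ₀' : repZ M ⟶ Hom(repZ M', μ_p)` (no compatibility between the two is needed).  With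
`hG hM n = dim Hⁿ(G_T, M)` and `hLoc hM v n = dim Hⁿ(G_{ℚ_v}, M)` (cohomology of the LC complexes):

* `sum_formula_cx`:
  `h⁰(M) + h²(M) + h⁰(M') + h²(M') + Σ_v h¹_v(M) = h¹(M) + h¹(M') + Σ_v h²_v(M) + Σ_v h²_v(M')`;
* `hLoc_two_dual`: `h²_v(M') = h⁰_v(M)`;
* finiteness of all the groups involved.
-/

set_option autoImplicit false
set_option linter.unusedSectionVars false
set_option linter.style.haveILetI false

open CategoryTheory ExtCitation Module

noncomputable section

namespace Fermat.Agent.TW.Euler.H2Surj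

open Fermat.Agent.CFT Fermat.Agent.CFT.PT Fermat.Agent.S55 HExt Fermat.Agent.TW.GWB

local notation "GQ" => (AlgebraicClosure ℚ ≃ₐ[ℚ] AlgebraicClosure ℚ)

attribute [local instance 2000] Rep.hV2
attribute [local instance 3000] finite_repZ

section Defs

variable {p : ℕ} [Fact p.Prime] {T : Finset Nat.Primes} {M : Rep (ZMod p) GQ}

/-- `dim_{𝔽_p} Hⁿ(G_{ℚ_v}, M)` (cohomology of the LC complex of the restriction). -/
def hLoc (hM : IsSmooth (globalLevel T) M) (v : ↥T) (n : ℕ) : ℕ :=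
  finrank (ZMod p) ((LC.cx (hM.res ((levelComap_global T).compat v))).H n)

theorem hG_zero (hM : IsSmooth (globalLevel T) M) :
    hG hM 0 = finrank (ZMod p) ↥(M.ρ.invariants) :=
  (LC.h0Equiv hM).finrank_eq

theorem hG_one (hM : IsSmooth (globalLevel T) M) :
    hG hM 1 = finrank (ZMod p) (LC.H1 (globalLevel T) M) :=
  (LC.h1Equiv hM).finrank_eq

theorem hG_two (hM : IsSmooth (globalLevel T) M) :
    hG hM 2 = finrank (ZMod p) (LC.H2 (globalLevel T) M) :=
  (LC.h2Equiv hM).finrank_eq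

theorem hLoc_zero (hM : IsSmooth (globalLevel T) M) (v : ↥T) :
    hLoc hM v 0 = finrank (ZMod p) ↥((Rep.res (primeLocalToGlobal v.1) M).ρ.invariants) :=
  (LC.h0Equiv (hM.res ((levelComap_global T).compat v))).finrank_eq

theorem hLoc_one (hM : IsSmooth (globalLevel T) M) (v : ↥T) :
    hLoc hM v 1 = finrank (ZMod p) (LocH1 T M v) :=
  ((LC.h1Equiv (hM.res ((levelComap_global T).compat v))).trans (toLocH1 T M v)).finrank_eq

theorem hLoc_two (hM : IsSmooth (globalLevel T) M) (v : ↥T) :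
    hLoc hM v 2 = finrank (ZMod p) (LocH2 T M v) :=
  ((LC.h2Equiv (hM.res ((levelComap_global T).compat v))).trans (toLocH2 T M v)).finrank_eq

end Defs

variable (p : ℕ) [hp : Fact p.Prime] (T : Finset Nat.Primes) (hpT : pPrime p ∈ T)
  (M M' : Rep (ZMod p) GQ) [FiniteDimensional (ZMod p) M] [FiniteDimensional (ZMod p) M']
  (hM : IsSmooth (globalLevel T) M) (hM' : IsSmooth (globalLevel T) M')
  (θ₀ : repZ M' ⟶ (Rep.ihom (repZ M)).obj (muRep p)) (hθ₀ : Function.Bijective θ₀.hom)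
  (θ₀' : repZ M ⟶ (Rep.ihom (repZ M')).obj (muRep p)) (hθ₀' : Function.Bijective θ₀'.hom)

include hpT hM hM' hθ₀ hθ₀' in
/-- **The SUM FORMULA in level-cohomology language** (`LC.H1`, `LC.H2` and the wrappers). -/
theorem sum_formula_lc (hp2 : p ≠ 2) :
    finrank (ZMod p) ↥(M.ρ.invariants) + finrank (ZMod p) (LC.H2 (globalLevel T) M) +
        finrank (ZMod p) ↥(M'.ρ.invariants) + finrank (ZMod p) (LC.H2 (globalLevel T) M') +
        ∑ v : ↥T, finrank (ZMod p) (LocH1 T M v) =
      finrank (ZMod p) (LC.H1 (globalLevel T) M) + finrank (ZMod p) (LC.H1 (globalLevel T) M') +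
        (∑ v : ↥T, finrank (ZMod p) (LocH2 T M v) + ∑ v : ↥T, finrank (ZMod p) (LocH2 T M' v)) := by
  classical
  haveI := fd_H1_global p T hpT hp2 M hM
  haveI := fd_H1_global p T hpT hp2 M' hM'
  haveI := fd_H2_global p T hpT M M' hM hM' θ₀ hθ₀ hp2
  haveI := fd_H2_global p T hpT M' M hM' hM θ₀' hθ₀' hp2
  haveI : ∀ v : ↥T, FiniteDimensional (ZMod p) (LocH1 T M v) := fun v => fd_LocH1 p T M hM v
  exact sum_formula (locW1 T M) (locW1 T M') (locW2 T M) (locW2 T M')
    (fun v => tateW p T hpT M M' hM hM' θ₀ hθ₀ v)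
    (fun v => tateW_flip_bijective p T hpT M M' hM hM' θ₀ hθ₀ v)
    (fun y => middle_W p T hpT M M' hM hM' θ₀ hθ₀ hp2 y)
    (sha_finrank_W p T hpT M M' hM hM' θ₀ hθ₀ hp2)
    (sha_finrank_W p T hpT M' M hM' hM θ₀' hθ₀' hp2)
    (finrank (ZMod p) ↥(M.ρ.invariants)) (finrank (ZMod p) ↥(M'.ρ.invariants))
    (end_eq p T hpT M' M hM' hM θ₀' hθ₀' hp2)
    (end_eq p T hpT M M' hM hM' θ₀ hθ₀ hp2)

include hpT hθ₀ hθ₀' in
/-- **The SUM FORMULA**, cohomology of the LC complexes. -/
theorem sum_formula_cx (hp2 : p ≠ 2) :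
    hG hM 0 + hG hM 2 + hG hM' 0 + hG hM' 2 + ∑ v : ↥T, hLoc hM v 1 =
      hG hM 1 + hG hM' 1 + (∑ v : ↥T, hLoc hM v 2 + ∑ v : ↥T, hLoc hM' v 2) := by
  rw [hG_zero, hG_zero, hG_one, hG_one, hG_two, hG_two,
    Finset.sum_congr rfl fun v _ => hLoc_one hM v,
    Finset.sum_congr rfl fun v _ => hLoc_two hM v,
    Finset.sum_congr rfl fun v _ => hLoc_two hM' v]
  exact sum_formula_lc p T hpT M M' hM hM' θ₀ hθ₀ θ₀' hθ₀' hp2

include hpT hθ₀ in
/-- `h²_v(M') = h⁰_v(M)` (local Tate duality in degrees `(2, 0)`). -/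
theorem hLoc_two_dual (v : ↥T) : hLoc hM' v 2 = hLoc hM v 0 := by
  rw [hLoc_two, hLoc_zero]
  exact locd_W p T hpT M M' hM hM' θ₀ hθ₀ v

/-! ### Finiteness, cohomology of the LC complexes -/

include hpT hM hθ₀ in
/-- The global cohomology groups of `M'` are finite-dimensional in degrees `≤ 2`. -/
theorem finite_cx_global (hp2 : p ≠ 2) (n : ℕ) (hn : n ≤ 2) :
    Module.Finite (ZMod p) ((LC.cx hM').H n) := by
  have h0 : Module.Finite (ZMod p) ((LC.cx hM').H 0) :=
    Module.Finite.equiv (LC.h0Equiv hM').symm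
  have h1 : Module.Finite (ZMod p) ((LC.cx hM').H 1) := by
    haveI := fd_H1_global p T hpT hp2 M' hM'
    exact Module.Finite.equiv (LC.h1Equiv hM').symm
  have h2 : Module.Finite (ZMod p) ((LC.cx hM').H 2) := by
    haveI := fd_H2_global p T hpT M M' hM hM' θ₀ hθ₀ hp2
    exact Module.Finite.equiv (LC.h2Equiv hM').symm
  interval_cases n
  · exact h0
  · exact h1
  · exact h2

include hpT hM hθ₀ in
/-- The local cohomology groups of `M'` are finite-dimensional in degrees `≤ 2`. -/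
theorem finite_cx_local (v : ↥T) (n : ℕ) (hn : n ≤ 2) :
    Module.Finite (ZMod p) ((LC.cx (hM'.res ((levelComap_global T).compat v))).H n) := by
  have h0 : Module.Finite (ZMod p) ((LC.cx (hM'.res ((levelComap_global T).compat v))).H 0) := by
    haveI : Module.Finite (ZMod p) (Rep.res (primeLocalToGlobal v.1) M') :=
      inferInstanceAs (Module.Finite (ZMod p) M')
    exact Module.Finite.equiv (LC.h0Equiv (hM'.res ((levelComap_global T).compat v))).symm
  have h1 : Module.Finite (ZMod p) ((LC.cx (hM'.res ((levelComap_global T).compat v))).H 1) := by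
    haveI := fd_LocH1 p T M' hM' v
    exact Module.Finite.equiv
      ((LC.h1Equiv (hM'.res ((levelComap_global T).compat v))).trans (toLocH1 T M' v)).symm
  have h2 : Module.Finite (ZMod p) ((LC.cx (hM'.res ((levelComap_global T).compat v))).H 2) := by
    haveI := fd_LocH2 p T hpT M M' hM hM' θ₀ hθ₀ v
    exact Module.Finite.equiv
      ((LC.h2Equiv (hM'.res ((levelComap_global T).compat v))).trans (toLocH2 T M' v)).symm
  interval_cases n
  · exact h0
  · exact h1
  · exact h2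

end Fermat.Agent.TW.Euler.H2Surj

end
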