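import Mathlib
import Fermat.Agent.TW.Euler.H2Surj.LesCount
import Fermat.Agent.TW.Euler.H2Surj.SumFormulaLC
import Fermat.Agent.TW.Euler.H2Surj.LocalZMod
import Fermat.Agent.TW.GWB.DictT

/-!
# PROGRAM G (S56), block GW-Euler, node EU-2: `h2SurjOut : H2SurjOut`

`H²(G_T, -)` is right exact on finite-dimensional `𝔽_p[G_ℚ]`-modules smooth for `globalLevel T`
(`p` odd, `p ∈ T`): THE SUM-FORMULA SQUEEZE.  For `0 → A → B → C → 0` and the dual sequence
`0 → C' → B' → A' → 0`:

* the long exact sequences give `χ(A) - χ(B) + χ(C) = h²(C) - rank (H²(B) → H²(C)) ≥ 0` and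
  `χ(C') - χ(B') + χ(A') = h²(A') - rank (H²(B') → H²(A')) ≥ 0`;
* locally `χ_v(A) - χ_v(B) + χ_v(C) = 0` (local `H²` is right exact, `LocalZMod.lean`);
* the sum formula `χ(X) + χ(X') = Σ_v χ_v(X)` (`SumFormulaLC.lean`: Poitou–Tate) for `X = A, B, C`.

Adding up: both defects vanish.
-/

set_option autoImplicit false
set_option linter.unusedSectionVars false
set_option linter.style.haveILetI false

open CategoryTheory ExtCitation Module

noncomputable section

namespace Fermat.Agent.TW.Euler.H2Surj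

open Fermat.Agent.CFT Fermat.Agent.CFT.PT Fermat.Agent.S55 HExt Fermat.Agent.TW.GWB

local notation "GQ" => (AlgebraicClosure ℚ ≃ₐ[ℚ] AlgebraicClosure ℚ)

attribute [local instance 2000] Rep.hV2
attribute [local instance 3000] finite_repZ

section Generic

variable (p : ℕ) [hp : Fact p.Prime] (T : Finset Nat.Primes) (hpT : pPrime p ∈ T)
  (A B C A' B' C' : Rep (ZMod p) GQ)
  [FiniteDimensional (ZMod p) A] [FiniteDimensional (ZMod p) B] [FiniteDimensional (ZMod p) C]
  [FiniteDimensional (ZMod p) A'] [FiniteDimensional (ZMod p) B'] [FiniteDimensional (ZMod p) C']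
  (hA : IsSmooth (globalLevel T) A) (hB : IsSmooth (globalLevel T) B)
  (hC : IsSmooth (globalLevel T) C) (hA' : IsSmooth (globalLevel T) A')
  (hB' : IsSmooth (globalLevel T) B') (hC' : IsSmooth (globalLevel T) C')
  (f : A ⟶ B) (g : B ⟶ C) (hf : Function.Injective f.hom) (hg : Function.Surjective g.hom)
  (hfg : Function.Exact f.hom g.hom)
  (g' : C' ⟶ B') (f' : B' ⟶ A') (hg' : Function.Injective g'.hom)
  (hf' : Function.Surjective f'.hom) (hg'f' : Function.Exact g'.hom f'.hom)
  (θA : repZ A' ⟶ (Rep.ihom (repZ A)).obj (muRep p)) (hθA : Function.Bijective θA.hom)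
  (θA' : repZ A ⟶ (Rep.ihom (repZ A')).obj (muRep p)) (hθA' : Function.Bijective θA'.hom)
  (θB : repZ B' ⟶ (Rep.ihom (repZ B)).obj (muRep p)) (hθB : Function.Bijective θB.hom)
  (θB' : repZ B ⟶ (Rep.ihom (repZ B')).obj (muRep p)) (hθB' : Function.Bijective θB'.hom)
  (θC : repZ C' ⟶ (Rep.ihom (repZ C)).obj (muRep p)) (hθC : Function.Bijective θC.hom)
  (θC' : repZ C ⟶ (Rep.ihom (repZ C')).obj (muRep p)) (hθC' : Function.Bijective θC'.hom)

include hpT hA hA' hB' hC' hf hg hfg hg' hf' hg'f' hθA hθA' hθB hθB' hθC hθC' in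
/-- **The squeeze**, generic duals: global `H²` is right exact as soon as the local `H²` are. -/
theorem h2_surjective_generic (hp2 : p ≠ 2)
    (hloc : ∀ v : ↥T, Function.Surjective
      ((LC.cxMap (hB.res ((levelComap_global T).compat v))
        (hC.res ((levelComap_global T).compat v)) (Rep.resMap (primeLocalToGlobal v.1) g)).mapH 2)) :
    Function.Surjective ((LC.cxMap hB hC g).mapH 2) := by
  -- finiteness
  have finA := finite_cx_global p T hpT A' A hA' hA θA' hθA' hp2
  have finB := finite_cx_global p T hpT B' B hB' hB θB' hθB' hp2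
  have finC := finite_cx_global p T hpT C' C hC' hC θC' hθC' hp2
  have finA' := finite_cx_global p T hpT A A' hA hA' θA hθA hp2
  have finB' := finite_cx_global p T hpT B B' hB hB' θB hθB hp2
  have finC' := finite_cx_global p T hpT C C' hC hC' θC hθC hp2
  have finAv := fun v => finite_cx_local p T hpT A' A hA' hA θA' hθA' v
  have finBv := fun v => finite_cx_local p T hpT B' B hB' hB θB' hθB' v
  have finCv := fun v => finite_cx_local p T hpT C' C hC' hC θC' hθC' v
  haveI := finC 2 le_rfl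
  haveI := finA' 2 le_rfl
  -- the three long exact sequence counts
  have glob := les_count hA hB hC f g hf hg hfg finA finB finC
  have glob' := les_count hC' hB' hA' g' f' hg' hf' hg'f' finC' finB' finA'
  have hr' := finrank_range_mapH_le (k := ZMod p) hB' hA' f' 2
  have hr := finrank_range_mapH_le (k := ZMod p) hB hC g 2
  have locv : ∀ v : ↥T, hLoc hA v 0 + hLoc hC v 0 + hLoc hB v 1 + hLoc hA v 2 + hLoc hC v 2 =
      hLoc hB v 0 + hLoc hA v 1 + hLoc hC v 1 + hLoc hB v 2 := by
    intro v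
    have h := les_count (hA.res ((levelComap_global T).compat v))
      (hB.res ((levelComap_global T).compat v)) (hC.res ((levelComap_global T).compat v))
      (Rep.resMap (primeLocalToGlobal v.1) f) (Rep.resMap (primeLocalToGlobal v.1) g) hf hg hfg
      (finAv v) (finBv v) (finCv v)
    have hs : finrank (ZMod p) ↥(LinearMap.range
        ((LC.cxMap (hB.res ((levelComap_global T).compat v))
          (hC.res ((levelComap_global T).compat v))
          (Rep.resMap (primeLocalToGlobal v.1) g)).mapH 2)) =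
        finrank (ZMod p) ((LC.cx (hC.res ((levelComap_global T).compat v))).H 2) := by
      rw [LinearMap.range_eq_top.2 (hloc v), finrank_top]
    rw [hs] at h
    exact h
  have loc : ∑ v : ↥T, hLoc hA v 0 + ∑ v : ↥T, hLoc hC v 0 + ∑ v : ↥T, hLoc hB v 1 +
        ∑ v : ↥T, hLoc hA v 2 + ∑ v : ↥T, hLoc hC v 2 =
      ∑ v : ↥T, hLoc hB v 0 + ∑ v : ↥T, hLoc hA v 1 + ∑ v : ↥T, hLoc hC v 1 +
        ∑ v : ↥T, hLoc hB v 2 := by
    simp only [← Finset.sum_add_distrib]
    exact Finset.sum_congr rfl fun v _ => locv v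
  -- the three sum formulas and the local dualities
  have sfA := sum_formula_cx p T hpT A A' hA hA' θA hθA θA' hθA' hp2
  have sfB := sum_formula_cx p T hpT B B' hB hB' θB hθB θB' hθB' hp2
  have sfC := sum_formula_cx p T hpT C C' hC hC' θC hθC θC' hθC' hp2
  have dA : ∑ v : ↥T, hLoc hA' v 2 = ∑ v : ↥T, hLoc hA v 0 :=
    Finset.sum_congr rfl fun v _ => hLoc_two_dual p T hpT A A' hA hA' θA hθA v
  have dB : ∑ v : ↥T, hLoc hB' v 2 = ∑ v : ↥T, hLoc hB v 0 :=
    Finset.sum_congr rfl fun v _ => hLoc_two_dual p T hpT B B' hB hB' θB hθB v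
  have dC : ∑ v : ↥T, hLoc hC' v 2 = ∑ v : ↥T, hLoc hC v 0 :=
    Finset.sum_congr rfl fun v _ => hLoc_two_dual p T hpT C C' hC hC' θC hθC v
  -- the squeeze
  have key := squeeze_arith (hG hA 0) (hG hA 1) (hG hA 2) (hG hB 0) (hG hB 1) (hG hB 2)
    (hG hC 0) (hG hC 1) (hG hC 2) (hG hA' 0) (hG hA' 1) (hG hA' 2) (hG hB' 0) (hG hB' 1)
    (hG hB' 2) (hG hC' 0) (hG hC' 1) (hG hC' 2)
    (finrank (ZMod p) ↥(LinearMap.range ((LC.cxMap hB hC g).mapH 2)))
    (finrank (ZMod p) ↥(LinearMap.range ((LC.cxMap hB' hA' f').mapH 2)))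
    (∑ v : ↥T, hLoc hA v 0) (∑ v : ↥T, hLoc hA v 1) (∑ v : ↥T, hLoc hA v 2)
    (∑ v : ↥T, hLoc hB v 0) (∑ v : ↥T, hLoc hB v 1) (∑ v : ↥T, hLoc hB v 2)
    (∑ v : ↥T, hLoc hC v 0) (∑ v : ↥T, hLoc hC v 1) (∑ v : ↥T, hLoc hC v 2)
    (∑ v : ↥T, hLoc hA' v 2) (∑ v : ↥T, hLoc hB' v 2) (∑ v : ↥T, hLoc hC' v 2)
    hr' glob glob' loc sfA sfB sfC dA dB dC
  exact surjective_of_finrank_range_eq _ (le_antisymm hr key)

end Generic

/-- **(EU-2)** `H²(G_T, -)` is right exact on finite smooth `p`-torsion modules: the literal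
contract `H2SurjOut` of `TW/Euler/Contracts.lean`. -/
theorem h2SurjOut : H2SurjOut := by
  intro p _ hp2 T hpT B C _ _ hB hC g hg
  have hA : IsSmooth (globalLevel T) (kerRep g) := isSmooth_kerRep g hB
  haveI : FiniteDimensional (ZMod p) (kerRep g) := moduleFinite_kerRep g
  haveI := finiteDimensional_dualTw p (kerRep g)
  haveI := finiteDimensional_dualTw p B
  haveI := finiteDimensional_dualTw p C
  exact h2_surjective_generic p T hpT (kerRep g) B C (dualTw p (kerRep g)) (dualTw p B)
    (dualTw p C) hA hB hC (isSmooth_dualTw p T hpT _ hA) (isSmooth_dualTw p T hpT B hB)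
    (isSmooth_dualTw p T hpT C hC) (kerIncl g) g (kerIncl_injective g) hg (kerIncl_exact g)
    (dualTwMap p g) (dualTwMap p (kerIncl g)) (dualTwMap_injective p g hg)
    (dualTwMap_surjective p (kerIncl g) (kerIncl_injective g))
    (dualTwMap_exact p (kerIncl g) g (kerIncl_exact g))
    (dictT p (kerRep g)) (dictT_hom_bijective p (kerRep g))
    (dualTwistIso p (kerRep g)).hom (dualTwistIso_hom_bijective p (kerRep g))
    (dictT p B) (dictT_hom_bijective p B)
    (dualTwistIso p B).hom (dualTwistIso_hom_bijective p B)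
    (dictT p C) (dictT_hom_bijective p C)
    (dualTwistIso p C).hom (dualTwistIso_hom_bijective p C)
    hp2 (fun v => local_H2_surjective_zmod p T hpT B C hB hC g hg v)

end Fermat.Agent.TW.Euler.H2Surj

end
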